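import Fermat.Agent.LT.T7.H193.KillSpec

/-!
# Row LT, tower T7, leaf T7.L2.1.K01 `RconvFinAvgC` (helper905, registry 2195)

OFF-MAIN.  `rconvFinAvgC905 (K) : H193.RconvFinAvgC K`, VERBATIM vs `T7/H193/KillSpec.lean`
(helper193@4a1c7c2bb, sha256 2cb0a205).  Nothing assumed (`T1.T1Out K` is not used).

`∫ φ(y) e(x y h) dy = ∫ φ(y h⁻¹) e(x y) dy = ∫ φ(y) e(x y) dy` for `h = i u ∈ Rep`
(right invariance of `μ`, right `H`-invariance of `φ`), and linearity of the integral (the
integrands are continuous of compact support).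
-/

set_option autoImplicit false

open IsDedekindDomain NumberField MeasureTheory
open scoped ComplexConjugate

noncomputable section

namespace Fermat.Agent.LT.T7.H905

open Fermat.Agent.LT.H556 Fermat.Agent.LT.H556.A0 Fermat.Agent.LT Fermat.Agent.LT.T7
  Fermat.Agent.LT.T7.H193

attribute [local instance] Fermat.Agent.LT.T5.instMeasurableSpaceG

variable {K : Type} [Field K] [NumberField K]

/-- The Borel σ-algebra of `GL₂(𝔸_K)` is the Borel σ-algebra. -/
theorem borelSpaceG905 : @BorelSpace (G K) _ (T5.instMeasurableSpaceG) := ⟨rfl⟩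

/-- One term: `∫ φ(y) e(x y h) dy = ∫ φ(y) e(x y) dy` for `φ` right invariant under `h`. -/
theorem rconv_translate905 {μ : Measure (G K)} (hinv : ∀ (g : G K) (A : Set (G K)),
      MeasurableSet A → μ ((fun x => x * g) ⁻¹' A) = μ A)
    (φ e : G K → ℂ) (h : G K) (hφ : ∀ y : G K, φ (y * h) = φ y) (x : G K) :
    ∫ y, φ y * e (x * (y * h)) ∂μ = ∫ y, φ y * e (x * y) ∂μ := by
  have : BorelSpace (G K) := borelSpaceG905
  have : μ.IsMulRightInvariant := ⟨fun g => Measure.ext fun A hA => by
    rw [Measure.map_apply (measurable_mul_const g) hA]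
    exact hinv g A hA⟩
  have h1 : (fun y : G K => φ y * e (x * (y * h)))
      = fun y => (fun z : G K => φ z * e (x * z)) (y * h) := by
    funext y
    show φ y * e (x * (y * h)) = φ (y * h) * e (x * (y * h))
    rw [hφ]
  rw [h1]
  exact integral_mul_right_eq_self (fun z : G K => φ z * e (x * z)) h

/-- **T7.L2.1.K01 RCONV-FIN-AVG.** -/
theorem rconvFinAvgC905 (K : Type) [Field K] [NumberField K] : RconvFinAvgC K := by
  intro _ R hR 𝔑 𝔑₀ l o Rep hRep φ hφc hφs hφH e hec x
  have : BorelSpace (G K) := borelSpaceG905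
  have : R.μ.IsHaarMeasure := hR.frame.haar
  have hterm : ∀ h ∈ Rep, ∫ y, φ y * e (x * y * h) ∂(R.μ) = ∫ y, φ y * e (x * y) ∂(R.μ) := by
    intro h hh
    obtain ⟨i, u, hi, hu, rfl⟩ := hRep.mem h hh
    have hφh : ∀ y : G K, φ (y * (i * u)) = φ y := by
      intro y
      rw [← mul_assoc, hφH.1 u hu, hφH.2 i hi]
    simp_rw [mul_assoc x]
    exact rconv_translate905 hR.frame.right_inv φ e (i * u) hφh x
  have hint : ∀ h ∈ Rep, Integrable (fun y : G K => φ y * e (x * y * h)) R.μ := by
    intro h _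
    have hc : Continuous (fun y : G K => φ y * e (x * y * h)) :=
      hφc.mul (hec.comp ((continuous_const.mul continuous_id).mul continuous_const))
    exact hc.integrable_of_hasCompactSupport (hφs.mul_right)
  have hcard : (Rep.card : ℂ) ≠ 0 := by
    exact_mod_cast (Finset.card_pos.mpr hRep.nonempty).ne'
  show ∫ y, φ y * finAvg Rep e (x * y) ∂(R.μ) = ∫ y, φ y * e (x * y) ∂(R.μ)
  have h2 : (fun y : G K => φ y * finAvg Rep e (x * y))
      = fun y => ((Rep.card : ℂ))⁻¹ * ∑ h ∈ Rep, φ y * e (x * y * h) := by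
    funext y
    unfold finAvg
    rw [Finset.mul_sum, Finset.mul_sum, Finset.mul_sum]
    refine Finset.sum_congr rfl fun h _ => ?_
    ring
  rw [h2, integral_const_mul, integral_finsetSum Rep hint, Finset.sum_congr rfl hterm,
    Finset.sum_const, nsmul_eq_mul, ← mul_assoc, inv_mul_cancel₀ hcard, one_mul]

end Fermat.Agent.LT.T7.H905
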